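import Fermat.Agent.S14.FirstIneq.ClassGen

/-!
# S14 / FirstIneq / Main / Clean : the cleaning lemma behind `main`.
Statement of `main_aux_clean` FROZEN (owner of `Main.lean`: helper298).

`S₀` is a finite class-generating set of primes of `F` disjoint from the finite set of primes `R`.
If `x ∈ Fˣ` is a unit at all `w ∈ R` and `p ∣ ord_u x` at all primes `u ∉ R ∪ S₀` which do not
split completely in `N`, then `x' := x * d ^ p` (for a suitable `d ∈ Fˣ`, a unit at `R`) is an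
`(S₀ ∪ T)`-unit for a finite set `T` of completely split primes outside `R`; it has the same
valuations mod `p` and the same `p`-th power residue behaviour at `R` as `x`.
-/

set_option autoImplicit false
set_option linter.unusedSectionVars false

namespace Fermat.Agent.S14.FirstIneq

open NumberField IsDedekindDomain UniqueFactorizationMonoid

/-- The coercion of `x * d ^ p : Fˣ` to `F`. -/
theorem main_aux_clean_val (F : Type*) [Field F] (x d : Fˣ) (p : ℕ) :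
    ((x * d ^ p : Fˣ) : F) = (x : F) * (d : F) ^ p := by
  rw [Units.val_mul, Units.val_pow_eq_pow_val]

/-- The valuations of `x * d ^ p`, at every ideal `u`. -/
theorem main_aux_clean_ord (F : Type*) [Field F] [NumberField F] (x d : Fˣ) (p : ℕ)
    (u : Ideal (𝓞 F)) :
    ord F u ((x * d ^ p : Fˣ) : F) = ord F u (x : F) + (p : ℤ) * ord F u (d : F) := by
  rw [main_aux_clean_val F x d p, ord_mul F u x.ne_zero (pow_ne_zero p d.ne_zero),
    ord_pow F u (d : F) p]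

theorem main_aux_clean {p : ℕ} [Fact p.Prime]
    (F N : Type*) [Field F] [NumberField F] [Field N] [NumberField N] [Algebra F N]
    (R : Finset (Ideal (𝓞 F))) (hR : ∀ w ∈ R, w.IsPrime ∧ w ≠ ⊥)
    (S₀ : Finset (Ideal (𝓞 F))) (hS₀ : ∀ v ∈ S₀, v.IsPrime ∧ v ≠ ⊥ ∧ v ∉ R)
    (hgen : ClassGen F (S₀ : Set (Ideal (𝓞 F))))
    (x : Fˣ) (hxR : ∀ w ∈ R, ord F w (x : F) = 0)
    (hx : ∀ u : Ideal (𝓞 F), u.IsPrime → u ≠ ⊥ → u ∉ R → ¬ SplitsCompletely F N u → u ∉ S₀ →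
      (p : ℤ) ∣ ord F u (x : F)) :
    ∃ (x' : Fˣ) (T : Finset (Ideal (𝓞 F))),
      (∀ v ∈ T, v.IsPrime ∧ v ≠ ⊥ ∧ v ∉ R ∧ SplitsCompletely F N v) ∧
      x' ∈ SUnits F ((S₀ : Set (Ideal (𝓞 F))) ∪ (T : Set (Ideal (𝓞 F)))) ∧
      (∀ u : Ideal (𝓞 F), (p : ℤ) ∣ ord F u (x' : F) - ord F u (x : F)) ∧
      (∀ w ∈ R, (IsPthRes F p w (x' : F) ↔ IsPthRes F p w (x : F))) := by
  classical
  -- the exponents to be realised
  let a : Ideal (𝓞 F) → ℤ := fun v =>
    if (v.IsPrime ∧ v ≠ ⊥ ∧ v ∉ R ∧ ¬ SplitsCompletely F N v ∧ v ∉ S₀) then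
      -(ord F v (x : F)) / (p : ℤ) else 0
  have ha_pos : ∀ v : Ideal (𝓞 F),
      (v.IsPrime ∧ v ≠ ⊥ ∧ v ∉ R ∧ ¬ SplitsCompletely F N v ∧ v ∉ S₀) →
      a v = -(ord F v (x : F)) / (p : ℤ) := fun v hc => if_pos hc
  have ha_neg : ∀ v : Ideal (𝓞 F),
      ¬ (v.IsPrime ∧ v ≠ ⊥ ∧ v ∉ R ∧ ¬ SplitsCompletely F N v ∧ v ∉ S₀) →
      a v = 0 := fun v hc => if_neg hc
  have hfin : {v : Ideal (𝓞 F) | v.IsPrime ∧ v ≠ ⊥ ∧ ord F v (x : F) ≠ 0}.Finite :=
    finite_ord_ne_zero F (x : F)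
  have ha : {v | a v ≠ 0}.Finite := by
    refine Set.Finite.subset hfin ?_
    intro v hv
    have hv' : a v ≠ 0 := hv
    by_cases hc : (v.IsPrime ∧ v ≠ ⊥ ∧ v ∉ R ∧ ¬ SplitsCompletely F N v ∧ v ∉ S₀)
    · refine ⟨hc.1, hc.2.1, ?_⟩
      intro h0
      apply hv'
      rw [ha_pos v hc, h0, neg_zero, Int.zero_ediv]
    · exact absurd (ha_neg v hc) hv'
  obtain ⟨d, hd⟩ := ClassGen.exists_ord_eq F hgen a ha
  refine ⟨x * d ^ p,
    hfin.toFinset.filter (fun v => v ∉ R ∧ v ∉ S₀ ∧ SplitsCompletely F N v), ?_, ?_, ?_, ?_⟩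
  · -- the elements of `T`
    intro v hv
    rw [Finset.mem_filter, Set.Finite.mem_toFinset] at hv
    exact ⟨hv.1.1, hv.1.2.1, hv.2.1, hv.2.2.2⟩
  · -- `x'` is an `(S₀ ∪ T)`-unit
    refine (mem_SUnits_iff F _ _).2 ?_
    intro v hvp hv0 hvS
    have hvS₀ : v ∉ S₀ := fun h => hvS (Or.inl (Finset.mem_coe.2 h))
    have hvS₀' : v ∉ (S₀ : Set (Ideal (𝓞 F))) := fun h => hvS₀ (Finset.mem_coe.1 h)
    have hvT : v ∉ hfin.toFinset.filter (fun v => v ∉ R ∧ v ∉ S₀ ∧ SplitsCompletely F N v) :=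
      fun h => hvS (Or.inr (Finset.mem_coe.2 h))
    rw [main_aux_clean_ord F x d p v, hd v hvp hv0 hvS₀']
    by_cases hvR : v ∈ R
    · rw [hxR v hvR, ha_neg v (fun hc => hc.2.2.1 hvR), mul_zero, add_zero]
    · by_cases hsp : SplitsCompletely F N v
      · have h2 : ord F v (x : F) = 0 := by
          by_contra hne
          apply hvT
          rw [Finset.mem_filter, Set.Finite.mem_toFinset]
          exact ⟨⟨hvp, hv0, hne⟩, hvR, hvS₀, hsp⟩
        rw [ha_neg v (fun hc => hc.2.2.2.1 hsp), h2, mul_zero, add_zero]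
      · have h2 : (p : ℤ) ∣ -(ord F v (x : F)) :=
          (dvd_neg).2 (hx v hvp hv0 hvR hsp hvS₀)
        rw [ha_pos v ⟨hvp, hv0, hvR, hsp, hvS₀⟩, Int.mul_ediv_cancel' h2, add_neg_cancel]
  · -- valuations mod `p`
    intro u
    rw [main_aux_clean_ord F x d p u, add_sub_cancel_left]
    exact Dvd.intro _ rfl
  · -- residue behaviour at `R`
    intro w hw
    obtain ⟨hwp, hw0⟩ := hR w hw
    have hwS₀ : w ∉ (S₀ : Set (Ideal (𝓞 F))) := fun h => (hS₀ w (Finset.mem_coe.1 h)).2.2 hw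
    have h0 : ord F w (d : F) = 0 := by
      rw [hd w hwp hw0 hwS₀, ha_neg w (fun hc => hc.2.2.1 hw)]
    have hdp : IsPthRes F p w ((d : F) ^ p) := isPthRes_pow_self F p hwp hw0 d.ne_zero h0
    rw [main_aux_clean_val F x d p]
    constructor
    · intro h
      have h2 : IsPthRes F p w ((x : F) * (d : F) ^ p / (d : F) ^ p) :=
        IsPthRes.div F p hwp hw0 h hdp
      rwa [mul_div_cancel_right₀ _ (pow_ne_zero p d.ne_zero)] at h2
    · intro h
      exact IsPthRes.mul F p hwp h hdp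

end Fermat.Agent.S14.FirstIneq
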