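import Fermat.Agent.S14.FirstIneq.PthRes

/-!
# S14 / FirstIneq / Main / Dichotomy : the linear-algebra dichotomy behind `main`.
Statement of `main_aux_dichotomy` FROZEN (owner of `Main.lean`: helper298).

`A` is a set of ideals of `𝓞 F` whose complement consists of nonzero primes.  Either there is a
function `e` on ideals, vanishing on `A`, not identically zero outside `A`, whose `principalSum`
vanishes on all "good" integers `y` (nonzero, prime to `R`, `p`-th power residue at all `w ∈ R`),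
or for every `u ∉ A` there is `z ∈ Fˣ`, a `p`-th power residue at all `w ∈ R`, with
`ord_u z ≡ 1` and `ord_u' z ≡ 0 mod p` for the other `u' ∉ A`.
-/

set_option autoImplicit false
set_option linter.unusedSectionVars false

namespace Fermat.Agent.S14.FirstIneq

open NumberField IsDedekindDomain UniqueFactorizationMonoid

/-! ### Auxiliary declarations (tag `main_aux_dich_`) -/

/-- The generators of the subspace `𝒦` of `Ideal (𝓞 F) →₀ ZMod p`: the basis vectors at the
elements of `A`, and the "divisors mod `p`" of the good integers `y`. -/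
def main_aux_dich_gens (p : ℕ) (F : Type*) [Field F] [NumberField F]
    (R : Finset (Ideal (𝓞 F))) (A : Set (Ideal (𝓞 F))) : Set (Ideal (𝓞 F) →₀ ZMod p) :=
  {t | ∃ v ∈ A, t = Finsupp.single v (1 : ZMod p)} ∪
    {t | ∃ y : 𝓞 F, (y ≠ 0 ∧ ∀ w ∈ R, y ∉ w ∧ ∃ c : 𝓞 F, y - c ^ p ∈ w) ∧
      t = ((normalizedFactors (Ideal.span {y})).map
        (fun v => Finsupp.single v (1 : ZMod p))).sum}

/-- The coefficient at `u` of the sum of the basis vectors indexed by a multiset is the
multiplicity of `u`. -/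
theorem main_aux_dich_sum_single_apply (p : ℕ) {ι : Type*} [DecidableEq ι]
    (s : Multiset ι) (u : ι) :
    (s.map (fun v => Finsupp.single v (1 : ZMod p))).sum u = (s.count u : ZMod p) := by
  induction s using Multiset.induction_on with
  | empty =>
    rw [Multiset.map_zero, Multiset.sum_zero, Finsupp.zero_apply, Multiset.count_zero,
      Nat.cast_zero]
  | cons a s ih =>
    rw [Multiset.map_cons, Multiset.sum_cons, Finsupp.add_apply, ih, Multiset.count_cons,
      Finsupp.single_apply]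
    by_cases h : a = u
    · rw [if_pos h, if_pos h.symm, Nat.cast_add, Nat.cast_one, add_comm]
    · rw [if_neg h, if_neg (fun h' => h h'.symm), zero_add, add_zero]

/-- Every element of the span of the generators is the "divisor mod `p`" (outside `A`) of some
`x ∈ Fˣ` which is a `p`-th power residue at all `w ∈ R`. -/
theorem main_aux_dich_c1 {p : ℕ} [Fact p.Prime] (F : Type*) [Field F] [NumberField F]
    (R : Finset (Ideal (𝓞 F))) (hR : ∀ w ∈ R, w.IsPrime ∧ w ≠ ⊥)
    (A : Set (Ideal (𝓞 F))) (hA : ∀ v : Ideal (𝓞 F), v ∉ A → v.IsPrime ∧ v ≠ ⊥)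
    (t : Ideal (𝓞 F) →₀ ZMod p)
    (ht : t ∈ Submodule.span (ZMod p) (main_aux_dich_gens p F R A)) :
    ∃ x : Fˣ, (∀ w ∈ R, IsPthRes F p w (x : F)) ∧
      ∀ u : Ideal (𝓞 F), u ∉ A → ((ord F u (x : F) : ℤ) : ZMod p) = t u := by
  classical
  have : NeZero p := ⟨(Fact.out : p.Prime).ne_zero⟩
  induction ht using Submodule.span_induction with
  | mem t ht =>
    rcases ht with ⟨v, hv, rfl⟩ | ⟨y, ⟨hy0, hy⟩, rfl⟩
    · refine ⟨1, fun w hw => ?_, fun u hu => ?_⟩
      · rw [Units.val_one]
        exact isPthRes_one F p (hR w hw).1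
      · rw [Units.val_one, ord_one, Int.cast_zero, Finsupp.single_apply, if_neg]
        rintro rfl
        exact hu hv
    · have hyF : algebraMap (𝓞 F) F y ≠ 0 := by
        intro h0
        exact hy0 ((FaithfulSMul.algebraMap_injective (𝓞 F) F) (by rw [h0, map_zero]))
      refine ⟨Units.mk0 _ hyF, fun w hw => ?_, fun u hu => ?_⟩
      · rw [Units.val_mk0]
        exact (isPthRes_algebraMap_iff F p (hR w hw).1 y).2 (hy w hw)
      · rw [Units.val_mk0, ord_algebraMap F (hA u hu).1 (hA u hu).2 hy0, Int.cast_natCast,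
          main_aux_dich_sum_single_apply]
  | zero =>
    refine ⟨1, fun w hw => ?_, fun u hu => ?_⟩
    · rw [Units.val_one]
      exact isPthRes_one F p (hR w hw).1
    · rw [Units.val_one, ord_one, Int.cast_zero, Finsupp.zero_apply]
  | add t₁ t₂ h₁ h₂ ih₁ ih₂ =>
    obtain ⟨x₁, hx₁, hx₁'⟩ := ih₁
    obtain ⟨x₂, hx₂, hx₂'⟩ := ih₂
    refine ⟨x₁ * x₂, fun w hw => ?_, fun u hu => ?_⟩
    · rw [Units.val_mul]
      exact IsPthRes.mul F p (hR w hw).1 (hx₁ w hw) (hx₂ w hw)
    · rw [Units.val_mul, ord_mul F u x₁.ne_zero x₂.ne_zero, Int.cast_add, hx₁' u hu, hx₂' u hu,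
        Finsupp.add_apply]
  | smul c t ht ih =>
    obtain ⟨x, hx, hx'⟩ := ih
    refine ⟨x ^ c.val, fun w hw => ?_, fun u hu => ?_⟩
    · rw [Units.val_pow_eq_pow_val]
      exact IsPthRes.pow F p (hR w hw).1 (hx w hw) _
    · rw [Units.val_pow_eq_pow_val, ord_pow, Int.cast_mul, Int.cast_natCast,
        ZMod.natCast_zmod_val, hx' u hu, Finsupp.smul_apply, smul_eq_mul]

/-! ### The frozen statement -/

theorem main_aux_dichotomy {p : ℕ} [Fact p.Prime] (F : Type*) [Field F] [NumberField F]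
    (R : Finset (Ideal (𝓞 F))) (hR : ∀ w ∈ R, w.IsPrime ∧ w ≠ ⊥)
    (A : Set (Ideal (𝓞 F))) (hA : ∀ v : Ideal (𝓞 F), v ∉ A → v.IsPrime ∧ v ≠ ⊥) :
    (∃ e : Ideal (𝓞 F) → ZMod p,
        (∃ q : Ideal (𝓞 F), q ∉ A ∧ e q ≠ 0) ∧ (∀ q : Ideal (𝓞 F), q ∈ A → e q = 0) ∧
        (∀ y : 𝓞 F, y ≠ 0 → (∀ w ∈ R, y ∉ w ∧ ∃ c : 𝓞 F, y - c ^ p ∈ w) →
          principalSum F e y = 0)) ∨
    (∀ u : Ideal (𝓞 F), u ∉ A → ∃ z : Fˣ,
        (∀ w ∈ R, IsPthRes F p w (z : F)) ∧
        ((ord F u (z : F) : ℤ) : ZMod p) = 1 ∧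
        (∀ u' : Ideal (𝓞 F), u' ∉ A → u' ≠ u → ((ord F u' (z : F) : ℤ) : ZMod p) = 0)) := by
  classical
  by_cases h : Submodule.span (ZMod p) (main_aux_dich_gens p F R A) = ⊤
  · -- the generators span everything: right alternative
    right
    intro u hu
    have hmem : (Finsupp.single u (1 : ZMod p)) ∈
        Submodule.span (ZMod p) (main_aux_dich_gens p F R A) := by
      rw [h]
      exact Submodule.mem_top
    obtain ⟨z, hz1, hz2⟩ := main_aux_dich_c1 F R hR A hA _ hmem
    refine ⟨z, hz1, ?_, ?_⟩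
    · rw [hz2 u hu, Finsupp.single_apply, if_pos rfl]
    · intro u' hu' hne
      rw [hz2 u' hu', Finsupp.single_apply, if_neg (fun h' => hne h'.symm)]
  · -- a nonzero functional vanishing on the generators: left alternative
    left
    obtain ⟨φ, hφ0, hφ⟩ := Submodule.exists_le_ker_of_lt_top _ (lt_top_iff_ne_top.mpr h)
    have hker : ∀ t ∈ main_aux_dich_gens p F R A, φ t = 0 := fun t ht =>
      LinearMap.mem_ker.mp (hφ (Submodule.subset_span ht))
    refine ⟨fun v => φ (Finsupp.single v (1 : ZMod p)), ?_, ?_, ?_⟩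
    · by_contra hcon
      apply hφ0
      apply Finsupp.lhom_ext
      intro a b
      have ha0 : φ (Finsupp.single a (1 : ZMod p)) = 0 := by
        by_cases ha : a ∈ A
        · exact hker _ (Or.inl ⟨a, ha, rfl⟩)
        · by_contra hne
          exact hcon ⟨a, ha, hne⟩
      have hsingle : (Finsupp.single a b : Ideal (𝓞 F) →₀ ZMod p) =
          b • Finsupp.single a (1 : ZMod p) := by
        rw [Finsupp.smul_single, smul_eq_mul, mul_one]
      rw [hsingle, map_smul, ha0, smul_zero, LinearMap.zero_apply]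
    · intro q hq
      exact hker _ (Or.inl ⟨q, hq, rfl⟩)
    · intro y hy hgood
      have h0 := hker _ (Or.inr ⟨y, ⟨hy, hgood⟩, rfl⟩)
      rw [map_multiset_sum, Multiset.map_map] at h0
      exact h0

end Fermat.Agent.S14.FirstIneq
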